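/-
S59, unit T: flatness descends along two maps which are jointly injective level by level.
-/
import Fermat.Agent.MCurve.Flat.Closure
import Fermat.Agent.Deform.MatrixRep
import Fermat.Prelude.Def_GaloisRep_Flat

set_option autoImplicit false
set_option linter.style.haveILetI false

noncomputable section

open IsLocalRing
open Fermat.Agent.Galois (GQ)
open Fermat.Agent.MCurve.Flat

namespace Fermat.Agent.R59

variable {p : ℕ}

/-- Integral coordinates on a product. -/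
theorem exists_intCoords_prod {A : ValuationSubring (AlgebraicClosure ℚ)} {M M' : Type}
    [AddCommGroup M] [DistribMulAction GQ M] [AddCommGroup M'] [DistribMulAction GQ M']
    (C : IntCoords M A p) (C' : IntCoords M' A p) : Nonempty (IntCoords (M × M') A p) := by
  letI := C.fintype_ι
  letI := C'.fintype_ι
  let φ : C.ι ⊕ C'.ι → M × M' → A :=
    Sum.elim (fun i v => C.φ i v.1) (fun i v => C'.φ i v.2)
  refine ⟨{
    ι := C.ι ⊕ C'.ι
    fintype_ι := inferInstance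
    φ := φ
    sep := fun v w h => Prod.ext (C.sep (funext fun i => congrFun h (Sum.inl i)))
      (C'.sep (funext fun i => congrFun h (Sum.inr i)))
    f := C.f * C'.f
    f_pos := Nat.mul_pos C.f_pos C'.f_pos
    equiv := fun σ hσ hζ => ?_
    isOpen_stab := ?_
    flip := ?_ }⟩
  · have hpow : ∀ d : ℕ, d ∣ C.f * C'.f → ∀ ζ : AlgebraicClosure ℚ,
        ζ ^ (p ^ d - 1) = 1 → σ ζ = ζ := fun d hd ζ h => hζ ζ (by
      obtain ⟨k, hk⟩ : p ^ d - 1 ∣ p ^ (C.f * C'.f) - 1 :=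
        Nat.pow_sub_one_dvd_pow_sub_one p hd
      rw [hk, pow_mul, h, one_pow])
    rintro (i | i) v
    · exact C.equiv σ hσ (hpow _ (dvd_mul_right _ _)) i v.1
    · exact C'.equiv σ hσ (hpow _ (dvd_mul_left _ _)) i v.2
  · obtain ⟨L, hL, hfix⟩ := C.isOpen_stab
    obtain ⟨L', hL', hfix'⟩ := C'.isOpen_stab
    exact ⟨L ⊔ L', inferInstance, fun σ hσ v => Prod.ext
      (hfix σ (fun x hx => hσ x ((le_sup_left : L ≤ L ⊔ L') hx)) v.1)
      (hfix' σ (fun x hx => hσ x ((le_sup_right : L' ≤ L ⊔ L') hx)) v.2)⟩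
  · let pr : ((M × M → A) →ₐ[A] ((M × M') × (M × M') → A)) :=
      AlgHom.pi (R := A) fun z => Pi.evalAlgHom A (fun _ : M × M => A) (z.1.1, z.2.1)
    let pr' : ((M' × M' → A) →ₐ[A] ((M × M') × (M × M') → A)) :=
      AlgHom.pi (R := A) fun z => Pi.evalAlgHom A (fun _ : M' × M' => A) (z.1.2, z.2.2)
    rintro (i | i)
    · have h := (Subalgebra.mem_map (f := pr)).mpr ⟨_, C.flip i, rfl⟩
      rw [AlgHom.map_adjoin] at h
      refine Algebra.adjoin_mono ?_ h
      rintro _ ⟨F, ⟨j, rfl⟩ | ⟨j, rfl⟩, rfl⟩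
      · exact Or.inl ⟨Sum.inl j, rfl⟩
      · exact Or.inr ⟨Sum.inl j, rfl⟩
    · have h := (Subalgebra.mem_map (f := pr')).mpr ⟨_, C'.flip i, rfl⟩
      rw [AlgHom.map_adjoin] at h
      refine Algebra.adjoin_mono ?_ h
      rintro _ ⟨F, ⟨j, rfl⟩ | ⟨j, rfl⟩, rfl⟩
      · exact Or.inl ⟨Sum.inr j, rfl⟩
      · exact Or.inr ⟨Sum.inr j, rfl⟩

variable [Fact p.Prime]

/-- Finite flat models on a product. -/
theorem hasFlatModel_prod {M M' : Type} [AddCommGroup M] [DistribMulAction GQ M] [Finite M]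
    [AddCommGroup M'] [DistribMulAction GQ M'] [Finite M'] (h : HasFlatModel M p)
    (h' : HasFlatModel M' p) : HasFlatModel (M × M') p := by
  obtain ⟨A, hA⟩ := Fermat.Agent.Galois.exists_liesOverPrime (Fact.out : p.Prime)
  obtain ⟨C⟩ := exists_intCoords_of_hasFlatModel h hA
  obtain ⟨C'⟩ := exists_intCoords_of_hasFlatModel h' hA
  obtain ⟨C''⟩ := exists_intCoords_prod C C'
  exact hasFlatModel_of_intCoords hA C''

variable {R : Type} [CommRing R] [IsLocalRing R]

/-- The Galois action on a level of a representation. -/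
abbrev levelDistribAction (ρ : GaloisRepAdic R) (I : Ideal R) :
    DistribMulAction GQ (ρ.V ⧸ (I • (⊤ : Submodule R ρ.V))) where
  smul σ w := ρ.levelAction I σ w
  one_smul w := Submodule.Quotient.induction_on _ w fun v => by
    show Submodule.Quotient.mk (ρ.ρ 1 v) = _
    rw [map_one, Module.End.one_apply]
  mul_smul σ τ w := Submodule.Quotient.induction_on _ w fun v => by
    show Submodule.Quotient.mk (ρ.ρ (σ * τ) v) = Submodule.Quotient.mk (ρ.ρ σ (ρ.ρ τ v))
    rw [map_mul, Module.End.mul_apply]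
  smul_zero σ := map_zero (ρ.levelAction I σ)
  smul_add σ u v := map_add (ρ.levelAction I σ) u v

omit [IsLocalRing R] in
/-- Membership in a level in coordinates. -/
theorem mem_smul_top_of_repr {V : Type} [AddCommGroup V] [Module R V] {ι : Type} [Fintype ι]
    (b : Module.Basis ι R V) (I : Ideal R) {v : V} :
    v ∈ I • (⊤ : Submodule R V) ↔ ∀ i, b.repr v i ∈ I := by
  refine ⟨fun h i => ?_, fun h => ?_⟩
  · refine Submodule.smul_induction_on h (fun c hc w _ => ?_) fun x y hx hy => ?_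
    · rw [map_smul, Finsupp.smul_apply, smul_eq_mul]
      exact Ideal.mul_mem_right _ _ hc
    · rw [map_add, Finsupp.add_apply]
      exact add_mem hx hy
  · rw [← b.sum_repr v]
    exact Submodule.sum_mem _ fun i _ => Submodule.smul_mem_smul (h i) Submodule.mem_top

theorem finite_level (ρ : GaloisRepAdic R) (I : Ideal R) [Finite (R ⧸ I)] :
    Finite (ρ.V ⧸ (I • (⊤ : Submodule R ρ.V))) := by
  let b := Module.finBasisOfFinrankEq R ρ.V ρ.finrank_eq
  refine Finite.of_surjective (fun c : Fin 2 → R ⧸ I =>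
    (I • (⊤ : Submodule R ρ.V)).mkQ (∑ i, Quotient.out (c i) • b i)) fun w => ?_
  obtain ⟨v, rfl⟩ := Submodule.mkQ_surjective _ w
  refine ⟨fun i => Ideal.Quotient.mk I (b.repr v i), ?_⟩
  show Submodule.Quotient.mk _ = Submodule.Quotient.mk _
  rw [Submodule.Quotient.eq, mem_smul_top_of_repr b]
  intro i
  rw [map_sub, Finsupp.sub_apply, b.repr_sum_self, ← Ideal.Quotient.mk_eq_mk_iff_sub_mem]
  exact Ideal.Quotient.mk_out _

/-- Flatness descends. -/
theorem isFlatAt_of_joint {R₁ R₂ : Type} [CommRing R₁] [IsLocalRing R₁] [CommRing R₂]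
    [IsLocalRing R₂] (f₁ : R →+* R₁) (f₂ : R →+* R₂) {r : GQ →* Deform.Mat2 R}
    (hc : Deform.MatCts r) {ρ₁ : GaloisRepAdic R₁} {ρ₂ : GaloisRepAdic R₂}
    (h₁ : Deform.HasMatrix ρ₁ ((Deform.mapHom f₁).comp r))
    (h₂ : Deform.HasMatrix ρ₂ ((Deform.mapHom f₂).comp r)) (hres : Finite (ResidueField R))
    (hlev : ∀ I : Ideal R, Finite (R ⧸ I) → ∃ (I₁ : Ideal R₁) (I₂ : Ideal R₂),
      Finite (R₁ ⧸ I₁) ∧ Finite (R₂ ⧸ I₂) ∧ I₁.comap f₁ ⊓ I₂.comap f₂ ≤ I)
    (hf₁ : ρ₁.IsFlatAt p) (hf₂ : ρ₂.IsFlatAt p) : (Deform.ofMatrix r hc).IsFlatAt p := by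
  refine ⟨hres, fun I hI => ?_⟩
  obtain ⟨I₁, I₂, hI₁, hI₂, hle⟩ := hlev I hI
  set I' := I₁.comap f₁ ⊓ I₂.comap f₂ with hI'
  set ρ := Deform.ofMatrix r hc with hρ
  haveI : Finite (R ⧸ I') :=
    Finite.of_injective
      (Ideal.Quotient.lift I'
        (RingHom.prod ((Ideal.Quotient.mk I₁).comp f₁) ((Ideal.Quotient.mk I₂).comp f₂))
        (fun a ha => Prod.ext (Ideal.Quotient.eq_zero_iff_mem.mpr ha.1)
          (Ideal.Quotient.eq_zero_iff_mem.mpr ha.2)))
      (RingHom.lift_injective_of_ker_le_ideal _ _ fun a ha =>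
        ⟨Ideal.mem_comap.mpr (Ideal.Quotient.eq_zero_iff_mem.mp (congrArg Prod.fst ha :)),
          Ideal.mem_comap.mpr (Ideal.Quotient.eq_zero_iff_mem.mp (congrArg Prod.snd ha :))⟩)
  letI := levelDistribAction ρ₁ I₁
  letI := levelDistribAction ρ₂ I₂
  letI := levelDistribAction ρ I'
  letI := levelDistribAction ρ I
  haveI := finite_level ρ₁ I₁
  haveI := finite_level ρ₂ I₂
  haveI := finite_level ρ I'
  obtain ⟨b, hb⟩ := Deform.hasMatrix_ofMatrix r hc
  -- the embedding of the finer level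
  have hmap : ∀ {S : Type} [CommRing S] [IsLocalRing S] (f : R →+* S) (π : GaloisRepAdic S)
      (J : Ideal S), Deform.HasMatrix π ((Deform.mapHom f).comp r) →
      ∃ g : ρ.V →+ π.V ⧸ (J • (⊤ : Submodule S π.V)),
        (∀ σ v, g (ρ.ρ σ v) = π.levelAction J σ (g v)) ∧
        ∀ v, g v = 0 ↔ ∀ i, f (b.repr v i) ∈ J := by
    intro S _ _ f π J hπ
    obtain ⟨c, hc'⟩ := hπ
    let g₀ : ρ.V →+ π.V :=
      { toFun := fun v => ∑ i, f (b.repr v i) • c i
        map_zero' := by simp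
        map_add' := fun v w => by simp [add_smul, Finset.sum_add_distrib] }
    have hrepr : ∀ v i, c.repr (g₀ v) i = f (b.repr v i) := fun v i =>
      congrFun (c.repr_sum_self fun j => f (b.repr v j)) i
    refine ⟨(J • (⊤ : Submodule S π.V)).mkQ.toAddMonoidHom.comp g₀, fun σ v => ?_, fun v => ?_⟩
    · show Submodule.Quotient.mk (g₀ (ρ.ρ σ v)) = Submodule.Quotient.mk (π.ρ σ (g₀ v))
      congr 1
      refine c.ext_elem fun i => ?_
      rw [hrepr, ← congrFun (LinearMap.toMatrix_mulVec_repr c c (π.ρ σ) (g₀ v)) i, hc' σ,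
        ← congrFun (LinearMap.toMatrix_mulVec_repr b b (ρ.ρ σ) v) i, hb σ]
      simp [Matrix.mulVec, dotProduct, hrepr]
    · show Submodule.Quotient.mk (g₀ v) = 0 ↔ _
      rw [Submodule.Quotient.mk_eq_zero, mem_smul_top_of_repr c]
      simp only [hrepr]
  obtain ⟨g₁, hg₁, hg₁0⟩ := hmap f₁ ρ₁ I₁ h₁
  obtain ⟨g₂, hg₂, hg₂0⟩ := hmap f₂ ρ₂ I₂ h₂
  have hker : ∀ v, (g₁.prod g₂) v = 0 ↔ v ∈ I' • (⊤ : Submodule R ρ.V) := fun v => by
    rw [mem_smul_top_of_repr b, AddMonoidHom.prod_apply, Prod.mk_eq_zero, hg₁0, hg₂0]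
    exact ⟨fun h i => ⟨h.1 i, h.2 i⟩, fun h => ⟨fun i => (h i).1, fun i => (h i).2⟩⟩
  let j : ρ.V ⧸ (I' • (⊤ : Submodule R ρ.V)) →+
      (ρ₁.V ⧸ (I₁ • (⊤ : Submodule R₁ ρ₁.V))) × (ρ₂.V ⧸ (I₂ • (⊤ : Submodule R₂ ρ₂.V))) :=
    QuotientAddGroup.lift _ (g₁.prod g₂) fun v hv => (hker v).mpr hv
  have hj : HasFlatModel (ρ.V ⧸ (I' • (⊤ : Submodule R ρ.V))) p := by
    refine (hasFlatModel_prod (hf₁.2 I₁ hI₁) (hf₂.2 I₂ hI₂)).of_injective j (fun σ w => ?_) ?_
    · induction w using Submodule.Quotient.induction_on with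
      | _ v => exact Prod.ext (hg₁ σ v) (hg₂ σ v)
    · refine (injective_iff_map_eq_zero j).mpr fun w => ?_
      induction w using Submodule.Quotient.induction_on with
      | _ v => exact fun hv => (Submodule.Quotient.mk_eq_zero _).mpr ((hker v).mp hv)
  have hfac : I' • (⊤ : Submodule R ρ.V) ≤ I • (⊤ : Submodule R ρ.V) :=
    Submodule.smul_mono hle le_rfl
  exact hj.of_surjective (Submodule.factor hfac).toAddMonoidHom
    (fun σ w => Submodule.Quotient.induction_on _ w fun v => rfl)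
    (Submodule.factor_surjective hfac)

end Fermat.Agent.R59
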