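/-
S59, unit T: what the conditions say about the matrices of a lift, and inertia at `p`.
-/
import Fermat.Agent.R59.Defs
import Fermat.Agent.LL.Gen.Local
import Fermat.Agent.GalRep.Ordinary.Criterion
import Fermat.Agent.Deform.AbsIrred
import Fermat.Agent.Deform.Coeff
import Fermat.Agent.Deform.TraceEquiv

set_option autoImplicit false
set_option linter.style.haveILetI false

noncomputable section

open IsLocalRing
open Fermat.Agent.Galois (GQ)
open Fermat.Agent.GalRep (cyc)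

namespace Fermat.Agent.R59

variable {p : ℕ} [Fact p.Prime]

/-- The element of `ℤ_p` attached to a Galois element by a cyclotomic congruence. -/
theorem cyc_sub_natCast_mem (n : ℕ) (σ : GQ) (a : ℕ)
    (ha : ∀ μ : AlgebraicClosure ℚ, μ ^ p ^ n = 1 → σ μ = μ ^ a) :
    ((cyc p σ : ℤ_[p]) - (a : ℤ_[p])) ∈ Ideal.span {((p ^ n : ℕ) : ℤ_[p])} := by
  rw [Nat.cast_pow, ← PadicInt.ker_toZModPow, RingHom.mem_ker, map_sub, map_natCast, sub_eq_zero]
  rcases eq_or_ne n 0 with rfl | hn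
  · haveI : Subsingleton (ZMod (p ^ 0)) := by rw [pow_zero]; infer_instance
    exact Subsingleton.elim _ _
  · haveI : NeZero (p ^ n) := ⟨pow_ne_zero n (Fact.out : p.Prime).ne_zero⟩
    obtain ⟨ζ, hζ⟩ := HasEnoughRootsOfUnity.exists_primitiveRoot (AlgebraicClosure ℚ) (p ^ n)
    exact GalRep.toZModPow_cyc_eq p σ hn hζ (ha ζ hζ.pow_eq_one)

variable {O : Type} [CommRing O] [Algebra ℤ_[p] O] {R : Type} [CommRing R] [Algebra O R]

theorem algebraMap_cyc_sub_mem (n : ℕ) (σ : GQ) (a : ℕ)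
    (ha : ∀ μ : AlgebraicClosure ℚ, μ ^ p ^ n = 1 → σ μ = μ ^ a) :
    algebraMap O R (algebraMap ℤ_[p] O (cyc p σ : ℤ_[p])) - (a : R) ∈
      Ideal.span {((p ^ n : ℕ) : R)} := by
  have h := cyc_sub_natCast_mem n σ a ha
  rw [Ideal.mem_span_singleton] at h ⊢
  have := map_dvd ((algebraMap O R).comp (algebraMap ℤ_[p] O)) h
  simpa using this

variable [IsLocalRing R] [IsHausdorff (maximalIdeal R) R]

/-- A cyclotomic determinant is the cyclotomic character. -/
theorem det_eq_cyc {ρ : GaloisRepAdic R} (h : ρ.DetIsCyclotomic p) (σ : GQ) :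
    LinearMap.det (ρ.ρ σ) = algebraMap O R (algebraMap ℤ_[p] O (cyc p σ : ℤ_[p])) := by
  refine sub_eq_zero.mp (IsHausdorff.haus (inferInstance : IsHausdorff (maximalIdeal R) R) _
    fun n => ?_)
  rw [SModEq.zero, smul_eq_mul, Ideal.mul_top]
  have hle : Ideal.span {((p ^ n : ℕ) : R)} ≤ maximalIdeal R ^ n := by
    rw [Ideal.span_singleton_le_iff_mem, Nat.cast_pow]
    exact Ideal.pow_mem_pow h.1 n
  let a := (((cyc p σ : ℤ_[p]).toZModPow n)).val
  have ha : ∀ μ : AlgebraicClosure ℚ, μ ^ p ^ n = 1 → σ μ = μ ^ a := fun μ hμ =>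
    GalRep.cyc_spec p σ μ hμ
  have h1 := hle (h.2 n σ a ha)
  have h2 := hle (algebraMap_cyc_sub_mem (O := O) (R := R) n σ a ha)
  simpa using sub_mem h1 h2

omit [IsHausdorff (maximalIdeal R) R] in
theorem trace_det_of_hasMatrix {ρ : GaloisRepAdic R} {r : GQ →* Deform.Mat2 R}
    (hr : Deform.HasMatrix ρ r) (σ : GQ) :
    (r σ).det = LinearMap.det (ρ.ρ σ) ∧ (r σ).charpoly = LinearMap.charpoly (ρ.ρ σ) := by
  obtain ⟨b, hb⟩ := hr
  exact ⟨by rw [← hb σ, LinearMap.det_toMatrix], by rw [← hb σ, LinearMap.charpoly_toMatrix]⟩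

omit [IsHausdorff (maximalIdeal R) R] in
/-- An element of inertia at `p` whose cyclotomic character is two modulo `p`. -/
theorem exists_inertia_two (hp2 : p ≠ 2) {P : ValuationSubring (AlgebraicClosure ℚ)}
    (hP : P.LiesOverPrime p) {ρ : GaloisRepAdic R} (h : ρ.DetIsCyclotomic p) :
    ∃ σ ∈ P.inertiaSubgroupIn ℚ, LinearMap.det (ρ.ρ σ) - 2 ∈ maximalIdeal R := by
  have hp : p.Prime := Fact.out
  haveI : NeZero p := ⟨hp.ne_zero⟩
  have h2 : ((2 : ℕ) : ZMod p) ≠ 0 := by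
    rw [Ne, ZMod.natCast_eq_zero_iff]
    exact fun hd => hp2 ((Nat.prime_dvd_prime_iff_eq hp Nat.prime_two).mp hd)
  obtain ⟨σ, hσ, hu⟩ := LL.exists_inertia_cycM hp hP (Units.mk0 _ h2)
  refine ⟨σ, hσ, ?_⟩
  have ha : ∀ μ : AlgebraicClosure ℚ, μ ^ p ^ 1 = 1 → σ μ = μ ^ 2 := fun μ hμ => by
    rw [pow_one] at hμ
    rw [GalRep.Level.cycM_spec σ hμ, hu, Units.val_mk0, ZMod.val_natCast,
      Nat.mod_eq_of_lt (lt_of_le_of_ne hp.two_le (Ne.symm hp2))]
  have hle : Ideal.span {((p ^ 1 : ℕ) : R)} ≤ maximalIdeal R := by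
    rw [Ideal.span_singleton_le_iff_mem, pow_one]
    exact h.1
  simpa using hle (h.2 1 σ 2 ha)

omit [Fact p.Prime] [IsHausdorff (maximalIdeal R) R] in
/-- On an ordinary representation inertia at `p` satisfies a quadratic identity. -/
theorem inertia_quad {ρ : GaloisRepAdic R} {r : GQ →* Deform.Mat2 R}
    (hr : Deform.HasMatrix ρ r) (ho : ρ.IsOrdinaryAt p)
    {P : ValuationSubring (AlgebraicClosure ℚ)} (hP : P.LiesOverPrime p) {σ τ : GQ}
    (hσ : σ ∈ P.inertiaSubgroupIn ℚ) (hτ : τ ∈ P.inertiaSubgroupIn ℚ) :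
    (r σ - 1).trace = (r σ).det - 1 ∧
      (r σ - 1) * (r τ - 1) = (r σ - 1).trace • (r τ - 1) := by
  obtain ⟨L, ⟨b, rfl⟩, -, hsub⟩ := ho P hP
  obtain ⟨c, hc⟩ := hr
  let ψ : Deform.Mat2 R ≃ₐ[R] Deform.Mat2 R :=
    (LinearMap.toMatrixAlgEquiv c).symm.trans (LinearMap.toMatrixAlgEquiv b)
  have hψ : ∀ g, ψ (r g) = LinearMap.toMatrix b b (ρ.ρ g) := fun g => by
    rw [← hc g]
    exact congrArg (LinearMap.toMatrix b b) ((LinearMap.toMatrixAlgEquiv c).symm_apply_apply _)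
  have htr : ∀ X, (ψ X).trace = X.trace := fun X => by
    conv_rhs => rw [← (LinearMap.toMatrixAlgEquiv c).apply_symm_apply X]
    exact (LinearMap.trace_eq_matrix_trace R b _).symm.trans (LinearMap.trace_eq_matrix_trace R c _)
  have hdet : ∀ X, (ψ X).det = X.det := fun X => by
    conv_rhs => rw [← (LinearMap.toMatrixAlgEquiv c).apply_symm_apply X]
    exact (LinearMap.det_toMatrix b _).trans (LinearMap.det_toMatrix c _).symm
  have hrow : ∀ g ∈ P.inertiaSubgroupIn ℚ, ∀ j, ψ (r g - 1) 1 j = 0 := fun g hg j => by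
    obtain ⟨x, hx⟩ := Submodule.mem_span_singleton.mp (hsub g hg (b j))
    rw [map_sub, map_one, Matrix.sub_apply, hψ, LinearMap.toMatrix_apply,
      eq_add_of_sub_eq hx.symm, map_add, map_smul, Finsupp.add_apply, Finsupp.smul_apply,
      b.repr_self, b.repr_self, Finsupp.single_eq_of_ne one_ne_zero, smul_zero, zero_add,
      Finsupp.single_apply, Matrix.one_apply]
    simp [eq_comm]
  refine ⟨?_, ψ.injective ?_⟩
  · have h0 := hrow σ hσ 0
    have h1 := hrow σ hσ 1
    rw [← htr, ← hdet (r σ), map_sub, map_one, Matrix.trace_fin_two, Matrix.det_fin_two]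
    simp only [map_sub, map_one, Matrix.sub_apply, Matrix.one_apply] at h0 h1
    simp [sub_eq_zero] at h0 h1
    simp [h0, h1]
  · rw [map_mul, map_smul, ← htr (r σ - 1)]
    generalize ψ (r σ - 1) = M, ψ (r τ - 1) = N, hrow σ hσ = hM, hrow τ hτ = hN at *
    ext i j
    fin_cases i <;> fin_cases j <;>
      simp [Matrix.mul_apply, Fin.sum_univ_two, Matrix.trace_fin_two, hM, hN]

section Lift

set_option linter.unusedSectionVars false

variable {O : Type} [CommRing O] [IsDomain O] [IsDiscreteValuationRing O]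
  [IsAdicComplete (maximalIdeal O) O] [Finite (ResidueField O)]
  [Algebra ℤ_[p] O] [Module.Finite ℤ_[p] O] [CharZero O]
  {ρbar : ResidualGaloisRep (ResidueField O)}

/-- A matrix lifting given residual matrices. -/
theorem Lift.exists_matrix (X : Lift p O ρbar) {rbar : GQ →* Deform.Mat2 (ResidueField O)}
    (hb : Deform.RHasMatrix ρbar rbar) :
    ∃ (π : X.R →ₐ[O] ResidueField O) (r : GQ →* Deform.Mat2 X.R),
      Deform.HasMatrix X.ρ r ∧ ∀ g, (r g).map π = rbar g := by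
  obtain ⟨π⟩ := Deform.exists_resMap (A := X.R) X.isLocalHom X.residue_surjective
  obtain ⟨r, hr, hres⟩ :=
    Deform.exists_hasMatrix_lifting X.ρ (hb.baseChangeAlong _) X.residual
  refine ⟨π, r, hr, fun g => Matrix.ext fun i j => ?_⟩
  have h := congrFun (congrFun (hres g) i) j
  rw [Matrix.map_apply, Deform.residue_eq_map_resMap π] at h
  exact (ResidueField.map (algebraMap O X.R)).injective h

end Lift

end Fermat.Agent.R59
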