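/-
S59, unit T: a finite algebra inside a product of two complete local algebras.
-/
import Fermat.Agent.Deform.Coeff
import Fermat.Agent.Deform.MatrixRep
import Fermat.Prelude.Thm_IsLocalRing_isAdicComplete_of_module_finite

set_option autoImplicit false
set_option linter.style.haveILetI false

noncomputable section

open IsLocalRing

namespace Fermat.Agent.R59

variable {O : Type} [CommRing O] [IsLocalRing O] [IsNoetherianRing O]

/-- In a finite local algebra high powers of the maximal ideal lie in powers of that of `O`. -/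
theorem exists_pow_le_map (R : Type) [CommRing R] [IsLocalRing R] [Algebra O R] [Module.Finite O R]
    [IsLocalHom (algebraMap O R)] (k : ℕ) :
    ∃ N : ℕ, maximalIdeal R ^ N ≤ (maximalIdeal O ^ k).map (algebraMap O R) := by
  haveI : IsNoetherianRing R := IsNoetherianRing.of_finite O R
  set J := (maximalIdeal O ^ k).map (algebraMap O R)
  have hrad : maximalIdeal R ≤ J.radical := by
    rw [Ideal.radical_eq_sInf]
    refine le_sInf fun P ⟨hJP, hP⟩ => ?_
    haveI := hP
    have hle : maximalIdeal O ≤ P.comap (algebraMap O R) :=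
      Ideal.IsPrime.le_of_pow_le (Ideal.map_le_iff_le_comap.mp hJP)
    have hmax : (P.comap (algebraMap O R)).IsMaximal := by
      rw [← (maximalIdeal.isMaximal O).eq_of_le (Ideal.comap_ne_top _ hP.ne_top) hle]
      exact maximalIdeal.isMaximal O
    exact (IsLocalRing.eq_maximalIdeal (Ideal.isMaximal_of_isIntegral_of_isMaximal_comap P hmax)).ge
  obtain ⟨n, hn⟩ := Ideal.exists_radical_pow_le_of_fg J (IsNoetherian.noetherian _)
  exact ⟨n, (Ideal.pow_right_mono hrad n).trans hn⟩

variable {R₁ R₂ : Type} [CommRing R₁] [IsLocalRing R₁] [Algebra O R₁] [Module.Finite O R₁]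
  [IsLocalHom (algebraMap O R₁)] [CommRing R₂] [IsLocalRing R₂] [Algebra O R₂] [Module.Finite O R₂]
  [IsLocalHom (algebraMap O R₂)]

omit [IsLocalRing R₁] [IsLocalHom (algebraMap O R₁)] [IsLocalRing R₂]
  [IsLocalHom (algebraMap O R₂)] in
/-- A finite subalgebra of the product with a residue map detecting units is complete local. -/
theorem exists_local_structure [IsAdicComplete (maximalIdeal O) O] (B : Subalgebra O (R₁ × R₂))
    (π : B →ₐ[O] ResidueField O) (hπ : ∀ b : B, π b ≠ 0 → IsUnit (b : R₁ × R₂)) :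
    ∃ (_ : IsLocalRing B) (_ : IsLocalHom (algebraMap O B)) (_ : IsNoetherianRing B)
      (_ : IsAdicComplete (maximalIdeal B) B) (_ : Module.Finite O B),
      Function.Surjective (residue B ∘ algebraMap O B) := by
  haveI hfin : Module.Finite O B := Module.Finite.of_injective B.val.toLinearMap Subtype.val_injective
  haveI : Module.Finite B (R₁ × R₂) := Module.Finite.of_restrictScalars_finite O B (R₁ × R₂)
  have hu : ∀ b : B, π b ≠ 0 → IsUnit b := fun b hb =>
    (RingHom.IsIntegral.isLocalHom (f := algebraMap B (R₁ × R₂))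
      (Algebra.IsIntegral.isIntegral (R := B) (A := R₁ × R₂)) Subtype.val_injective).map_nonunit b
      (hπ b hb)
  haveI := Deform.isLocalRing_of_resMap π hu
  haveI := Deform.isLocalHom_algebraMap_of_resMap π
  exact ⟨inferInstance, inferInstance, IsNoetherianRing.of_finite O B,
    IsLocalRing.isAdicComplete_of_module_finite (𝒪 := O), hfin,
    Deform.residue_surjective_of_resMap π⟩

/-- The powers of the maximal ideals of the factors cut out small ideals of a subalgebra. -/
theorem exists_level (B : Subalgebra O (R₁ × R₂)) [IsLocalRing B]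
    [IsLocalHom (algebraMap O B)] (a : ℕ) :
    ∃ N : ℕ, ∀ b : B, (b : R₁ × R₂).1 ∈ maximalIdeal R₁ ^ N →
      (b : R₁ × R₂).2 ∈ maximalIdeal R₂ ^ N → b ∈ maximalIdeal B ^ a := by
  obtain ⟨c, hc⟩ := Ideal.exists_pow_inf_eq_pow_smul (maximalIdeal O) (Subalgebra.toSubmodule B)
  obtain ⟨N₁, hN₁⟩ := exists_pow_le_map R₁ (O := O) (a + c)
  obtain ⟨N₂, hN₂⟩ := exists_pow_le_map R₂ (O := O) (a + c)
  refine ⟨max N₁ N₂, fun b h1 h2 => ?_⟩
  set I := maximalIdeal O ^ (a + c) with hI
  have e1 : (b : R₁ × R₂).1 ∈ I • (⊤ : Submodule O R₁) := by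
    rw [Ideal.smul_top_eq_map, Submodule.restrictScalars_mem]
    exact hN₁ (Ideal.pow_le_pow_right (le_max_left _ _) h1)
  have e2 : (b : R₁ × R₂).2 ∈ I • (⊤ : Submodule O R₂) := by
    rw [Ideal.smul_top_eq_map, Submodule.restrictScalars_mem]
    exact hN₂ (Ideal.pow_le_pow_right (le_max_right _ _) h2)
  have hmem : (b : R₁ × R₂) ∈ I • (⊤ : Submodule O (R₁ × R₂)) := by
    have d1 := Submodule.mem_map_of_mem (f := LinearMap.inl O R₁ R₂) e1
    have d2 := Submodule.mem_map_of_mem (f := LinearMap.inr O R₁ R₂) e2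
    rw [Submodule.map_smul''] at d1 d2
    have := add_mem (Submodule.smul_mono le_rfl le_top d1) (Submodule.smul_mono le_rfl le_top d2)
    simpa using this
  have h3 : (b : R₁ × R₂) ∈ I • ⊤ ⊓ Subalgebra.toSubmodule B := ⟨hmem, b.2⟩
  rw [hI, hc (a + c) (Nat.le_add_left c a), Nat.add_sub_cancel] at h3
  have h4 := Submodule.smul_mono le_rfl inf_le_right h3
  have htop : Subalgebra.toSubmodule B = Submodule.map B.val.toLinearMap ⊤ := by
    rw [Submodule.map_top]
    exact (Submodule.range_subtype _).symm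
  rw [htop, ← Submodule.map_smul''] at h4
  obtain ⟨z, hz, hzb⟩ := h4
  obtain rfl : z = b := Subtype.val_injective hzb
  rw [SetLike.mem_coe, Ideal.smul_top_eq_map, Submodule.restrictScalars_mem, Ideal.map_pow] at hz
  exact Ideal.pow_right_mono
    (Ideal.map_le_iff_le_comap.mpr fun x hx =>
      Ideal.mem_comap.mpr (map_nonunit (algebraMap O B) x hx)) a hz

end Fermat.Agent.R59
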