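/-
S59, unit T: the representation over the trace algebra of two lifts.
-/
import Fermat.Agent.R59.Glue.Local
import Fermat.Agent.R59.Glue.Ring
import Fermat.Agent.Auto.HeckeRep

set_option autoImplicit false
set_option linter.style.haveILetI false
set_option linter.unusedSectionVars false

noncomputable section

open IsLocalRing
open Fermat.Agent.Galois (GQ)
open Fermat.Agent.GalRep (cyc)
open Fermat.Agent.Auto (IsPseudo)

namespace Fermat.Agent.R59

/-- The trace identity of two by two matrices. -/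
theorem trace_mul_trace {R : Type} [CommRing R] (A : Deform.Mat2 R) {B B' : Deform.Mat2 R}
    (h : B * B' = 1) : A.trace * B.trace = (A * B).trace + B.det * (A * B').trace := by
  have hadj : B.det • B' = B.adjugate := by
    calc B.det • B' = B.adjugate * B * B' := by rw [Matrix.adjugate_mul, smul_mul_assoc, one_mul]
      _ = B.adjugate := by rw [mul_assoc, h, mul_one]
  rw [← smul_eq_mul B.det, ← Matrix.trace_smul, ← mul_smul_comm, hadj, Matrix.adjugate_fin_two]
  simp only [Matrix.trace_fin_two, Matrix.mul_apply, Fin.sum_univ_two, Matrix.of_apply,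
    Matrix.cons_val', Matrix.cons_val_zero, Matrix.cons_val_one, Matrix.empty_val',
    Matrix.cons_val_fin_one]
  ring

variable {p : ℕ} [Fact p.Prime] {O : Type} [CommRing O] [IsDomain O] [IsDiscreteValuationRing O]
  [IsAdicComplete (maximalIdeal O) O] [Finite (ResidueField O)]
  [Algebra ℤ_[p] O] [Module.Finite ℤ_[p] O] [CharZero O]
  {ρbar : ResidualGaloisRep (ResidueField O)}

/-- The pairs of traces. -/
def tracePair (X Y : Lift p O ρbar) (g : GQ) : X.R × Y.R := (X.ρ.trace g, Y.ρ.trace g)

/-- The trace algebra. -/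
abbrev traceAlg (X Y : Lift p O ρbar) : Subalgebra O (X.R × Y.R) :=
  Algebra.adjoin O (Set.range (tracePair X Y))

/-- The coordinates of the trace algebra. -/
abbrev toFst (X Y : Lift p O ρbar) : traceAlg X Y →ₐ[O] X.R :=
  (AlgHom.fst O X.R Y.R).comp (traceAlg X Y).val

/-- The coordinates of the trace algebra. -/
abbrev toSnd (X Y : Lift p O ρbar) : traceAlg X Y →ₐ[O] Y.R :=
  (AlgHom.snd O X.R Y.R).comp (traceAlg X Y).val

theorem traceAlg_ext {X Y : Lift p O ρbar} {a b : traceAlg X Y}
    (h₁ : toFst X Y a = toFst X Y b) (h₂ : toSnd X Y a = toSnd X Y b) : a = b :=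
  Subtype.ext (Prod.ext h₁ h₂)

theorem mat_ext {X Y : Lift p O ρbar} {M M' : Deform.Mat2 (traceAlg X Y)}
    (h₁ : M.map (toFst X Y) = M'.map (toFst X Y)) (h₂ : M.map (toSnd X Y) = M'.map (toSnd X Y)) :
    M = M' :=
  Matrix.ext fun i j => traceAlg_ext (congrFun (congrFun h₁ i) j) (congrFun (congrFun h₂ i) j)

/-- The glued representation, with matrices giving back both lifts. -/
theorem exists_glue_rep (hp2 : p ≠ 2)
    (habs : ρbar.IsAbsolutelyIrreducible) (X Y : Lift p O ρbar) :
    ∃ (_ : IsLocalRing (traceAlg X Y)) (_ : IsLocalHom (algebraMap O (traceAlg X Y)))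
      (_ : IsNoetherianRing (traceAlg X Y))
      (_ : IsAdicComplete (maximalIdeal (traceAlg X Y)) (traceAlg X Y))
      (_ : Module.Finite O (traceAlg X Y)),
      Function.Surjective (residue (traceAlg X Y) ∘ algebraMap O (traceAlg X Y)) ∧
      ∃ (r : GQ →* Deform.Mat2 (traceAlg X Y)) (hc : Deform.MatCts r),
        (∀ g, ((r g).trace : X.R × Y.R) = tracePair X Y g) ∧
        (∀ g, (r g).det = algebraMap O _ (algebraMap ℤ_[p] O (cyc p g : ℤ_[p]))) ∧
        Deform.HasMatrix X.ρ ((Deform.mapHom (toFst X Y).toRingHom).comp r) ∧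
        Deform.HasMatrix Y.ρ ((Deform.mapHom (toSnd X Y).toRingHom).comp r) ∧
        (Deform.ofMatrix r hc).residual.IsEquiv
          (ρbar.baseChangeAlong (ResidueField.map (algebraMap O (traceAlg X Y)))) := by
  classical
  obtain ⟨rbar, hrbar⟩ := Deform.exists_rhasMatrix ρbar
  obtain ⟨πX, rX, hrX, hX⟩ := X.exists_matrix hrbar
  obtain ⟨πY, rY, hrY, hY⟩ := Y.exists_matrix hrbar
  have hnd := Deform.RHasMatrix.traceNondeg hrbar habs
  have hres : ∀ g, πX (X.ρ.trace g) = (rbar g).trace ∧ πY (Y.ρ.trace g) = (rbar g).trace := by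
    intro g
    rw [hrX.trace_eq, hrY.trace_eq, ← hX g]
    conv => arg 2; rhs; rw [hX g, ← hY g]
    simp [Matrix.trace_fin_two]
  let π : traceAlg X Y →ₐ[O] ResidueField O := πX.comp (toFst X Y)
  have hπY : πY.comp (toSnd X Y) = π := by
    refine AlgHom.ext fun b => ?_
    obtain ⟨b, hb⟩ := b
    show πY b.2 = πX b.1
    induction hb using Algebra.adjoin_induction with
    | mem x hx =>
      obtain ⟨g, rfl⟩ := hx
      exact (hres g).2.trans (hres g).1.symm
    | algebraMap c => exact (πY.commutes c).trans (πX.commutes c).symm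
    | add x y _ _ hx hy => rw [Prod.snd_add, Prod.fst_add, map_add, map_add, hx, hy]
    | mul x y _ _ hx hy => rw [Prod.snd_mul, Prod.fst_mul, map_mul, map_mul, hx, hy]
  have hunit : ∀ b, π b ≠ 0 → IsUnit (b : X.R × Y.R) := fun b hb => by
    rw [Prod.isUnit_iff]
    exact ⟨Deform.isUnit_of_resMap_ne_zero πX hb,
      Deform.isUnit_of_resMap_ne_zero πY (by rw [← hπY] at hb; exact hb)⟩
  obtain ⟨iloc, ilh, inoe, icpl, ifin, hsurj⟩ := exists_local_structure (traceAlg X Y) π hunit
  haveI := iloc
  haveI := ilh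
  refine ⟨iloc, ilh, inoe, icpl, ifin, hsurj, ?_⟩
  have h2 : IsUnit (2 : O) := by
    have hz : IsUnit (2 : ℤ_[p]) := by
      rw [show (2 : ℤ_[p]) = ((2 : ℕ) : ℤ_[p]) by norm_num, PadicInt.isUnit_iff,
        PadicInt.norm_natCast_eq_one_iff]
      exact (Nat.coprime_primes (Fact.out : p.Prime) Nat.prime_two).mpr hp2
    exact (map_ofNat (algebraMap ℤ_[p] O) 2) ▸ hz.map _
  letI : Invertible (2 : traceAlg X Y) :=
    ((map_ofNat (algebraMap O (traceAlg X Y)) 2) ▸ h2.map (algebraMap O _)).invertible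
  letI : Invertible (2 : ResidueField O) :=
    ((map_ofNat (residue O) 2) ▸ h2.map (residue O)).invertible
  -- the pseudo-representation
  let t : GQ → traceAlg X Y := fun g => ⟨tracePair X Y g, Algebra.subset_adjoin ⟨g, rfl⟩⟩
  let d : GQ →* traceAlg X Y := (algebraMap O (traceAlg X Y)).toMonoidHom.comp
    ((algebraMap ℤ_[p] O).toMonoidHom.comp ((Units.coeHom ℤ_[p]).comp (cyc p)))
  have hdX : ∀ g, (rX g).det = toFst X Y (d g) := fun g => by
    rw [(trace_det_of_hasMatrix hrX g).1, det_eq_cyc (O := O) X.det_cyclotomic g]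
    exact (AlgHom.commutes _ _).symm
  have hdY : ∀ g, (rY g).det = toSnd X Y (d g) := fun g => by
    rw [(trace_det_of_hasMatrix hrY g).1, det_eq_cyc (O := O) Y.det_cyclotomic g]
    exact (AlgHom.commutes _ _).symm
  have htX : ∀ g, (rX g).trace = toFst X Y (t g) := fun g => (hrX.trace_eq g).symm
  have htY : ∀ g, (rY g).trace = toSnd X Y (t g) := fun g => (hrY.trace_eq g).symm
  have hmulX : ∀ g, rX g * rX g⁻¹ = 1 := fun g => by rw [← map_mul, mul_inv_cancel, map_one]
  have hmulY : ∀ g, rY g * rY g⁻¹ = 1 := fun g => by rw [← map_mul, mul_inv_cancel, map_one]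
  have hpt : IsPseudo t d :=
    { map_one := traceAlg_ext
        (by rw [← htX, map_one, map_ofNat, Matrix.trace_one, Fintype.card_fin, Nat.cast_ofNat])
        (by rw [← htY, map_one, map_ofNat, Matrix.trace_one, Fintype.card_fin, Nat.cast_ofNat])
      comm := fun g h => traceAlg_ext
        (by rw [← htX, ← htX, map_mul, map_mul, Matrix.trace_mul_comm])
        (by rw [← htY, ← htY, map_mul, map_mul, Matrix.trace_mul_comm])
      mul := fun g h => traceAlg_ext
        (by rw [map_mul, map_add, map_mul, ← htX, ← htX, ← htX, ← htX, ← hdX, map_mul rX,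
          map_mul rX, trace_mul_trace _ (hmulX h)])
        (by rw [map_mul, map_add, map_mul, ← htY, ← htY, ← htY, ← htY, ← hdY, map_mul rY,
          map_mul rY, trace_mul_trace _ (hmulY h)]) }
  have hcc : GalRep.Semistable.conjQ * GalRep.Semistable.conjQ = 1 :=
    GalRep.Semistable.conjQ_mul_self
  set c : GQ := GalRep.Semistable.conjQ
  have hdc : d c = -1 := by
    show algebraMap O _ (algebraMap ℤ_[p] O (cyc p c : ℤ_[p])) = -1
    rw [GalRep.Semistable.cyc_conjQ, Units.val_neg, Units.val_one, map_neg, map_one, map_neg,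
      map_one]
  have hπt : ∀ g, π (t g) = (rbar g).trace := fun g => (hres g).1
  have hc0 : (rbar c).trace = 0 := by rw [← hπt, hpt.map_c hcc hdc, map_zero]
  obtain ⟨g₀, h₀, hx⟩ := Auto.exists_xPart_ne_zero rbar hnd c hcc hc0
  have hx' : IsUnit (IsPseudo.xPart t c g₀ h₀) := by
    refine notMem_maximalIdeal.mp fun hmem => hx ?_
    rw [Deform.mem_maximal_iff_resMap π] at hmem
    rw [show (fun x => (rbar x).trace) = π ∘ t from funext fun x => (hπt x).symm]
    exact (Auto.map_xPart π.toRingHom t c g₀ h₀).symm.trans hmem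
  let r₀ := hpt.rep hcc hdc g₀ h₀ hx'.unit hx'.unit_spec
  -- make the reduction equal to `rbar`
  obtain ⟨Ub, hUb⟩ := Deform.exists_conj_of_trace_eq' hnd (π := RingHom.id _)
    (fun a ha => isUnit_iff_ne_zero.mpr ha) (r := rbar)
    (r' := (Deform.mapHom π.toRingHom).comp r₀) (fun g => Matrix.map_id _) (fun g => by
      rw [← hπt, ← hpt.trace_rep hcc hdc g₀ h₀ hx'.unit hx'.unit_spec g]
      simp [Matrix.trace_fin_two, r₀])
  choose f hf using Deform.resMap_surjective π
  have hU : IsUnit ((Ub : Deform.Mat2 (ResidueField O)).map f) := by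
    rw [Matrix.isUnit_iff_isUnit_det]
    refine Deform.isUnit_of_resMap_ne_zero π ?_
    rw [AlgHom.map_det, AlgHom.mapMatrix_apply,
      show ((Ub : Deform.Mat2 (ResidueField O)).map f).map π = Ub from Matrix.ext fun i j => hf _]
    exact ((Matrix.isUnit_iff_isUnit_det _).mp Ub.isUnit).ne_zero
  obtain ⟨U, hU'⟩ := hU
  let r : GQ →* Deform.Mat2 (traceAlg X Y) :=
    { toFun := fun g => U⁻¹.val * r₀ g * U.val
      map_one' := by rw [map_one, mul_one, Units.inv_mul]
      map_mul' := fun a b => by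
        rw [map_mul]
        simp only [mul_assoc, Units.mul_inv_cancel_left] }
  have htr : ∀ g, (r g).trace = t g := fun g => by
    show (U⁻¹.val * r₀ g * U.val).trace = t g
    rw [Matrix.trace_units_conj', hpt.trace_rep]
  have hdet : ∀ g, (r g).det = d g := fun g => by
    show (U⁻¹.val * r₀ g * U.val).det = d g
    rw [Matrix.det_units_conj', hpt.det_rep]
  have hred : ∀ g, (r g).map π = rbar g := fun g => by
    have e1 : π.toRingHom.mapMatrix (U.val * r g) =
        π.toRingHom.mapMatrix (r₀ g * U.val) := congrArg _ (by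
      show U.val * (U⁻¹.val * r₀ g * U.val) = _
      rw [mul_assoc, Units.mul_inv_cancel_left])
    rw [map_mul, map_mul, show π.toRingHom.mapMatrix U.val = Ub from by
      rw [hU']; exact Matrix.ext fun i j => hf _] at e1
    exact Ub.isUnit.mul_left_cancel (e1.trans (hUb g))
  have hπu : ∀ a, πX a ≠ 0 → IsUnit a := fun a => Deform.isUnit_of_resMap_ne_zero πX
  have hπu' : ∀ a, πY a ≠ 0 → IsUnit a := fun a => Deform.isUnit_of_resMap_ne_zero πY
  obtain ⟨VX, hVX⟩ := Deform.exists_conj_of_trace_eq' hnd (π := πX.toRingHom) hπu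
    (r := (Deform.mapHom (toFst X Y).toRingHom).comp r) (r' := rX)
    (fun g => (Matrix.ext fun i j => rfl : _ = ((r g).map π)).trans (hred g))
    (fun g => by rw [htX, ← htr]; simp [Matrix.trace_fin_two])
  obtain ⟨VY, hVY⟩ := Deform.exists_conj_of_trace_eq' hnd (π := πY.toRingHom) hπu'
    (r := (Deform.mapHom (toSnd X Y).toRingHom).comp r) (r' := rY)
    (fun g => ((Matrix.ext fun i j => AlgHom.congr_fun hπY _ : _ = ((r g).map π))).trans (hred g))
    (fun g => by rw [htY, ← htr]; simp [Matrix.trace_fin_two])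
  have hMX := hrX.conj VX hVX
  have hMY := hrY.conj VY hVY
  have hcts : Deform.MatCts r := fun n => by
    obtain ⟨N, hN⟩ := exists_level (traceAlg X Y) n
    obtain ⟨L, hL, hLr⟩ := hMX.matCts N
    obtain ⟨L', hL', hLr'⟩ := hMY.matCts N
    refine ⟨L ⊔ L', inferInstance, fun σ hσ i j => hN _ ?_ ?_⟩
    · have := hLr σ (fun x hx => hσ x ((le_sup_left : L ≤ L ⊔ L') hx)) i j
      rw [Matrix.sub_apply] at this ⊢
      convert this using 1
      fin_cases i <;> fin_cases j <;> simp
    · have := hLr' σ (fun x hx => hσ x ((le_sup_right : L' ≤ L ⊔ L') hx)) i j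
      rw [Matrix.sub_apply] at this ⊢
      convert this using 1
      fin_cases i <;> fin_cases j <;> simp
  refine ⟨r, hcts, fun g => congrArg Subtype.val (htr g), hdet, hMX, hMY, ?_⟩
  refine (Deform.hasMatrix_ofMatrix r hcts).residual.isEquiv ?_
  have e : (Deform.mapHom (residue (traceAlg X Y))).comp r =
      (Deform.mapHom (ResidueField.map (algebraMap O (traceAlg X Y)))).comp rbar :=
    MonoidHom.ext fun g => Matrix.ext fun i j => by
      show residue (traceAlg X Y) (r g i j) = ResidueField.map _ (rbar g i j)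
      rw [Deform.residue_eq_map_resMap π, ← hred g, Matrix.map_apply]
  rw [e]
  exact hrbar.baseChangeAlong _

end Fermat.Agent.R59
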